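import Mathlib.RingTheory.LaurentSeries
import Mathlib.RingTheory.PowerSeries.Derivative
import Mathlib.RingTheory.Derivation.Basic
import Mathlib.Algebra.CharZero.Defs

/-!
# S24, package DIFF: the derivative of Laurent series is a derivation

`laurentDeriv L : Derivation L (LaurentSeries L) (LaurentSeries L)` with underlying map Mathlib's
`LaurentSeries.derivative`, and the behaviour of the order under it in characteristic zero.
-/

set_option autoImplicit false

namespace Fermat.Agent.S24.H9

open HahnSeries

variable {L : Type*} [Field L]

theorem algebraMap_eq_single (c : L) :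
    algebraMap L (LaurentSeries L) c = HahnSeries.single 0 c := by
  have h1 : algebraMap L (PowerSeries L) c = PowerSeries.C c := by simp
  rw [HahnSeries.algebraMap_apply', h1, HahnSeries.ofPowerSeries_C]
  rfl

theorem derivative_coeff (f : LaurentSeries L) (n : ℤ) :
    (LaurentSeries.derivative L f).coeff n = ((n + 1 : ℤ) : L) * f.coeff (n + 1) := by
  rw [LaurentSeries.derivative_apply, LaurentSeries.hasseDeriv_coeff]
  simp [zsmul_eq_mul]

theorem ofPowerSeries_coeff_neg (p : PowerSeries L) {n : ℤ} (hn : n < 0) :
    (ofPowerSeries ℤ L p).coeff n = 0 := by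
  rw [ofPowerSeries_apply]
  refine embDomain_of_notMem_range ?_
  rintro ⟨m, rfl⟩
  exact absurd hn (not_lt.mpr (Int.natCast_nonneg m))

theorem derivative_ofPowerSeries (p : PowerSeries L) :
    LaurentSeries.derivative L (ofPowerSeries ℤ L p) =
      ofPowerSeries ℤ L (PowerSeries.derivative L p) := by
  ext n
  rw [derivative_coeff]
  rcases lt_trichotomy n (-1) with hn | hn | hn
  · rw [ofPowerSeries_coeff_neg p (by omega), ofPowerSeries_coeff_neg _ (by omega), mul_zero]
  · subst hn
    rw [ofPowerSeries_coeff_neg (PowerSeries.derivative L p) (by norm_num)]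
    simp
  · obtain ⟨m, rfl⟩ : ∃ m : ℕ, n = (m : ℤ) := ⟨n.toNat, by omega⟩
    have h1 : ((m : ℤ) + 1) = ((m + 1 : ℕ) : ℤ) := by push_cast; ring1
    rw [h1, ofPowerSeries_apply_coeff, ofPowerSeries_apply_coeff, PowerSeries.coeff_derivative]
    push_cast
    ring1

theorem derivative_single_mul (k : ℤ) (f : LaurentSeries L) :
    LaurentSeries.derivative L (single k (1 : L) * f) =
      single k (1 : L) * LaurentSeries.derivative L f +
        single (k - 1) (k : L) * f := by
  ext n
  rw [derivative_coeff, coeff_add, coeff_single_mul, coeff_single_mul,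
    coeff_single_mul, derivative_coeff]
  have h1 : n + 1 - k = n - k + 1 := by ring1
  have h2 : n - (k - 1) = n - k + 1 := by ring1
  rw [h1, h2]
  push_cast
  ring1

theorem exists_single_mul_ofPowerSeries (f : LaurentSeries L) :
    ∃ (k : ℤ) (p : PowerSeries L), f = single k (1 : L) * ofPowerSeries ℤ L p :=
  ⟨f.order, LaurentSeries.powerSeriesPart f, (LaurentSeries.single_order_mul_powerSeriesPart f).symm⟩

theorem derivative_mul (f g : LaurentSeries L) :
    LaurentSeries.derivative L (f * g) =
      f * LaurentSeries.derivative L g + g * LaurentSeries.derivative L f := by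
  obtain ⟨k, p, rfl⟩ := exists_single_mul_ofPowerSeries f
  obtain ⟨m, q, rfl⟩ := exists_single_mul_ofPowerSeries g
  have hmul : single k (1 : L) * ofPowerSeries ℤ L p * (single m (1 : L) * ofPowerSeries ℤ L q) =
      single (k + m) (1 : L) * ofPowerSeries ℤ L (p * q) := by
    rw [map_mul, mul_mul_mul_comm, single_mul_single, one_mul]
  have hs1 : single k (1 : L) * single (m - 1) (m : L) = single (k + m - 1) (m : L) := by
    rw [single_mul_single, one_mul, add_sub_assoc]
  have hs2 : single m (1 : L) * single (k - 1) (k : L) = single (k + m - 1) (k : L) := by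
    rw [single_mul_single, one_mul, add_comm k m, add_sub_assoc]
  have hs3 : single k (1 : L) * single m (1 : L) = single (k + m) (1 : L) := by
    rw [single_mul_single, one_mul]
  have hs4 : single (k + m - 1) (((k + m : ℤ) : L)) =
      single (k + m - 1) (m : L) + single (k + m - 1) (k : L) := by
    rw [← single_add]; congr 1; push_cast; ring1
  rw [hmul, derivative_single_mul, derivative_single_mul, derivative_single_mul,
    derivative_ofPowerSeries, derivative_ofPowerSeries, derivative_ofPowerSeries,
    Derivation.leibniz, map_add, smul_eq_mul, smul_eq_mul, map_mul, map_mul, map_mul,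
    hs4, ← hs3, ← hs1, ← hs2]
  ring1

/-- The derivative of Laurent series as a derivation. -/
noncomputable def laurentDeriv (L : Type*) [Field L] :
    Derivation L (LaurentSeries L) (LaurentSeries L) where
  toFun := LaurentSeries.derivative L
  map_add' := map_add _
  map_smul' r f := by
    ext n
    have h2 : ((RingHom.id L) r • LaurentSeries.derivative L f).coeff n =
        r * (LaurentSeries.derivative L f).coeff n := by simp
    rw [h2, derivative_coeff, derivative_coeff]
    rw [Algebra.smul_def, algebraMap_eq_single, coeff_single_mul, sub_zero]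
    ring1
  map_one_eq_zero' := by
    ext n
    show (LaurentSeries.derivative L (1 : LaurentSeries L)).coeff n = (0 : LaurentSeries L).coeff n
    rw [derivative_coeff, coeff_zero, coeff_one]
    by_cases hn : n + 1 = 0
    · rw [hn]; simp
    · rw [if_neg hn, mul_zero]
  leibniz' a b := by
    show LaurentSeries.derivative L (a * b) =
      a • LaurentSeries.derivative L b + b • LaurentSeries.derivative L a
    rw [smul_eq_mul, smul_eq_mul]
    exact derivative_mul a b

theorem laurentDeriv_apply (f : LaurentSeries L) :
    laurentDeriv L f = LaurentSeries.derivative L f := rfl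

theorem laurentDeriv_coeff (f : LaurentSeries L) (n : ℤ) :
    (laurentDeriv L f).coeff n = ((n + 1 : ℤ) : L) * f.coeff (n + 1) :=
  derivative_coeff f n

theorem laurentDeriv_C (c : L) : laurentDeriv L (HahnSeries.C c) = 0 := by
  ext n
  rw [laurentDeriv_coeff, coeff_zero]
  by_cases hn : n + 1 = 0
  · rw [hn]; simp
  · rw [HahnSeries.C_apply, coeff_single_of_ne hn, mul_zero]

/-- In characteristic zero the derivative lowers a nonzero order by exactly one. -/
theorem laurentDeriv_ne_zero_and_order [CharZero L] {f : LaurentSeries L} (hf : f.order ≠ 0) :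
    laurentDeriv L f ≠ 0 ∧ (laurentDeriv L f).order = f.order - 1 := by
  have hf0 : f ≠ 0 := by
    rintro rfl
    exact hf order_zero
  have hc : (laurentDeriv L f).coeff (f.order - 1) ≠ 0 := by
    rw [laurentDeriv_coeff, sub_add_cancel]
    exact mul_ne_zero (Int.cast_ne_zero.mpr hf) (coeff_order_eq_zero.not.mpr hf0)
  have hne : laurentDeriv L f ≠ 0 := by
    intro h
    rw [h, coeff_zero] at hc
    exact hc rfl
  refine ⟨hne, le_antisymm (order_le_of_coeff_ne_zero hc) ?_⟩
  by_contra hlt
  rw [not_le] at hlt
  have h1 := coeff_order_eq_zero.not.mpr hne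
  apply h1
  rw [laurentDeriv_coeff, coeff_eq_zero_of_lt_order (by omega), mul_zero]

end Fermat.Agent.S24.H9
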