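import Mathlib
import Fermat.Prelude.Def_AlgebraicCurve_CanonicalDivisor
import Fermat.Agent.S24.H9.LaurentDeriv

/-!
# S24, package DIFF: orders of differentials at a place via a Laurent-series embedding

For a place `v` of `F/K` and a ring homomorphism `φ : F →+* LaurentSeries L` (char. zero) which
computes `v` with ramification index `e` (`(φ f).order = e * v.ord f`) and whose image of `K` is
killed by `d/du`, we compute `v.ordDifferential (g • D x)` whenever `Ω[F⁄K] = F · D x`:

  `e * v.ordDifferential (g • D x) = e * v.ord g + (d/du (φ x)).order - (e - 1)`,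

and in particular `v.ordDifferential (g • D x) = v.ord g + v.ord (x - c) - 1` when `x - c` has a zero
or a pole at `v`.  The Prelude's private choice of a uniformizer plays no role.
-/

set_option autoImplicit false

namespace Fermat.Agent.S24.H9

open KaehlerDifferential AlgebraicCurve HahnSeries

variable {K F : Type*} [Field K] [Field F] [Algebra K F]

/-- The Prelude's coordinate differential at `v` is `D t` for a uniformizer `t`. -/
theorem exists_uniformizer_dCoord (v : Place K F) :
    ∃ t : F, v.ord t = 1 ∧ v.dCoord = KaehlerDifferential.D K F t := by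
  refine ⟨((IsDiscreteValuationRing.exists_irreducible v.toValuationSubring).choose : F), ?_, rfl⟩
  exact v.ord_coe_irreducible
    (IsDiscreteValuationRing.exists_irreducible v.toValuationSubring).choose_spec

/-- The coefficient of a differential with respect to the coordinate differential, when the
latter is nonzero. -/
theorem differentialCoeff_eq (v : Place K F) (hne : v.dCoord ≠ 0) {ω : Ω[F⁄K]} {f : F}
    (h : ω = f • v.dCoord) : v.differentialCoeff ω = f := by
  have hex : ∃ f : F, ω = f • v.dCoord := ⟨f, h⟩
  have hspec := hex.choose_spec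
  have hc : v.differentialCoeff ω = hex.choose := by
    unfold Place.differentialCoeff
    rw [dif_pos hex]
  rw [hc]
  have key : (hex.choose - f) • v.dCoord = 0 := by
    rw [sub_smul, ← hspec, ← h, sub_self]
  rcases smul_eq_zero.mp key with h0 | h0
  · exact sub_eq_zero.mp h0
  · exact absurd h0 hne

section Bridge

variable {L : Type*} [Field L]

/-- Laurent series regarded as a module over `F` through a ring homomorphism `φ`. -/
def ViaHom (_φ : F →+* LaurentSeries L) : Type _ := LaurentSeries L

noncomputable instance (φ : F →+* LaurentSeries L) : AddCommGroup (ViaHom φ) :=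
  inferInstanceAs (AddCommGroup (LaurentSeries L))

noncomputable instance instModuleViaHom (φ : F →+* LaurentSeries L) : Module F (ViaHom φ) :=
  Module.compHom (LaurentSeries L) φ

noncomputable instance instModuleViaHomBase (φ : F →+* LaurentSeries L) : Module K (ViaHom φ) :=
  Module.compHom (LaurentSeries L) (φ.comp (algebraMap K F))

theorem viaHom_smul_def (φ : F →+* LaurentSeries L) (f : F) (m : ViaHom φ) :
    f • m = (φ f * (show LaurentSeries L from m) : LaurentSeries L) := rfl

theorem viaHom_smul_def_base (φ : F →+* LaurentSeries L) (a : K) (m : ViaHom φ) :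
    a • m = (φ (algebraMap K F a) * (show LaurentSeries L from m) : LaurentSeries L) := rfl

instance (φ : F →+* LaurentSeries L) : IsScalarTower K F (ViaHom φ) where
  smul_assoc a f m := by
    rw [viaHom_smul_def, viaHom_smul_def_base, viaHom_smul_def, Algebra.smul_def, map_mul,
      mul_assoc]

/-- The derivation `f ↦ d/du (φ f)`. -/
noncomputable def derivOfHom (φ : F →+* LaurentSeries L)
    (hK : ∀ a : K, laurentDeriv L (φ (algebraMap K F a)) = 0) : Derivation K F (ViaHom φ) where
  toFun f := (laurentDeriv L (φ f) : LaurentSeries L)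
  map_add' f g := by
    show laurentDeriv L (φ (f + g)) = laurentDeriv L (φ f) + laurentDeriv L (φ g)
    rw [map_add, map_add]
  map_smul' a f := by
    show laurentDeriv L (φ (a • f)) = φ (algebraMap K F a) * laurentDeriv L (φ f)
    rw [Algebra.smul_def, map_mul, Derivation.leibniz, hK, smul_zero, add_zero, smul_eq_mul]
  map_one_eq_zero' := by
    show laurentDeriv L (φ 1) = 0
    rw [map_one, Derivation.map_one_eq_zero]
  leibniz' f g := by
    show laurentDeriv L (φ (f * g)) = φ f * laurentDeriv L (φ g) + φ g * laurentDeriv L (φ f)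
    rw [map_mul, Derivation.leibniz, smul_eq_mul, smul_eq_mul]

theorem derivOfHom_apply (φ : F →+* LaurentSeries L)
    (hK : ∀ a : K, laurentDeriv L (φ (algebraMap K F a)) = 0) (f : F) :
    derivOfHom φ hK f = (laurentDeriv L (φ f) : LaurentSeries L) := rfl

/-- A linear relation between differentials is seen by `d/du ∘ φ`. -/
theorem laurentDeriv_eq_of_D_eq (φ : F →+* LaurentSeries L)
    (hK : ∀ a : K, laurentDeriv L (φ (algebraMap K F a)) = 0) {x y c : F}
    (h : KaehlerDifferential.D K F y = c • KaehlerDifferential.D K F x) :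
    laurentDeriv L (φ y) = φ c * laurentDeriv L (φ x) := by
  have h1 := congrArg (derivOfHom φ hK).liftKaehlerDifferential h
  rw [map_smul, Derivation.liftKaehlerDifferential_comp_D,
    Derivation.liftKaehlerDifferential_comp_D] at h1
  exact h1

variable [CharZero L]

/-- **DIFF bridge.**  Order of the differential `g • D x` at a place computed by a Laurent-series
embedding with ramification index `e`. -/
theorem ordDifferential_mul_eq (v : Place K F) (φ : F →+* LaurentSeries L)
    (hK : ∀ a : K, laurentDeriv L (φ (algebraMap K F a)) = 0)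
    {e : ℤ} (he : e ≠ 0) (hord : ∀ f : F, f ≠ 0 → (φ f).order = e * v.ord f)
    {x : F} (hx : Submodule.span F {KaehlerDifferential.D K F x} = ⊤) {g : F} (hg : g ≠ 0) :
    e * v.ordDifferential (g • KaehlerDifferential.D K F x) =
      e * v.ord g + (laurentDeriv L (φ x)).order - (e - 1) := by
  obtain ⟨t, ht1, htD⟩ := exists_uniformizer_dCoord v
  have ht0 : t ≠ 0 := by
    rintro rfl
    rw [v.ord_zero] at ht1
    exact zero_ne_one ht1
  -- the derivative of `φ t`
  have hφt : (φ t).order ≠ 0 := by
    rw [hord t ht0, ht1, mul_one]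
    exact he
  obtain ⟨hdt0, hdt⟩ := laurentDeriv_ne_zero_and_order hφt
  rw [hord t ht0, ht1, mul_one] at hdt
  -- `D t = c • D x`
  have hmem : KaehlerDifferential.D K F t ∈ Submodule.span F {KaehlerDifferential.D K F x} := by
    rw [hx]
    exact Submodule.mem_top
  obtain ⟨c, hc⟩ := Submodule.mem_span_singleton.mp hmem
  have hrel := laurentDeriv_eq_of_D_eq φ hK hc.symm
  have hc0 : c ≠ 0 := by
    rintro rfl
    rw [map_zero, zero_mul] at hrel
    exact hdt0 hrel
  have hdx0 : laurentDeriv L (φ x) ≠ 0 := by
    intro h0
    rw [h0, mul_zero] at hrel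
    exact hdt0 hrel
  have hφc0 : φ c ≠ 0 := by
    rwa [Ne, map_eq_zero]
  have hordc : e - 1 = e * v.ord c + (laurentDeriv L (φ x)).order := by
    rw [← hdt, hrel, order_mul hφc0 hdx0, hord c hc0]
  -- the coordinate differential is nonzero
  have hDt0 : v.dCoord ≠ 0 := by
    rw [htD]
    intro h0
    have := laurentDeriv_eq_of_D_eq φ hK (x := x) (y := t) (c := 0) (by rw [h0, zero_smul])
    rw [map_zero, zero_mul] at this
    exact hdt0 this
  have hω : g • KaehlerDifferential.D K F x = (g * c⁻¹) • v.dCoord := by
    rw [htD, ← hc, smul_smul, mul_assoc, inv_mul_cancel₀ hc0, mul_one]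
  have hcoeff := differentialCoeff_eq v hDt0 hω
  unfold Place.ordDifferential
  rw [hcoeff, v.ord_mul hg (inv_ne_zero hc0), v.ord_inv]
  linarith

/-- If `x - c` has a zero or a pole at `v`, then `ord_v (g • D x) = ord_v g + ord_v (x - c) - 1`. -/
theorem ordDifferential_eq_of_ord_sub_ne_zero (v : Place K F) (φ : F →+* LaurentSeries L)
    (hK : ∀ a : K, laurentDeriv L (φ (algebraMap K F a)) = 0)
    {e : ℤ} (he : e ≠ 0) (hord : ∀ f : F, f ≠ 0 → (φ f).order = e * v.ord f)
    {x : F} (hx : Submodule.span F {KaehlerDifferential.D K F x} = ⊤) {g : F} (hg : g ≠ 0)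
    (c : K) (hxc : v.ord (x - algebraMap K F c) ≠ 0) :
    v.ordDifferential (g • KaehlerDifferential.D K F x) =
      v.ord g + v.ord (x - algebraMap K F c) - 1 := by
  have h := ordDifferential_mul_eq v φ hK he hord hx hg
  have hxc0 : x - algebraMap K F c ≠ 0 := by
    intro h0
    rw [h0, v.ord_zero] at hxc
    exact hxc rfl
  have hd : laurentDeriv L (φ x) = laurentDeriv L (φ (x - algebraMap K F c)) := by
    rw [map_sub, map_sub, hK, sub_zero]
  have hφ : (φ (x - algebraMap K F c)).order ≠ 0 := by
    rw [hord _ hxc0]
    exact mul_ne_zero he hxc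
  obtain ⟨-, ho⟩ := laurentDeriv_ne_zero_and_order hφ
  rw [hd, ho, hord _ hxc0] at h
  have h' : e * v.ordDifferential (g • KaehlerDifferential.D K F x) =
      e * (v.ord g + v.ord (x - algebraMap K F c) - 1) := by
    rw [h]; ring
  exact mul_left_cancel₀ he h'

end Bridge

end Fermat.Agent.S24.H9
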