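import Mathlib

/-!
# S24, package DIFF: `Ω[F⁄K] = F · D x` for `F` algebraic over `K(x)` in characteristic zero
-/

set_option autoImplicit false

namespace Fermat.Agent.S24.H9

open KaehlerDifferential IntermediateField Polynomial

variable {K F : Type*} [Field K] [Field F] [Algebra K F]

/-- The elements of `F` whose differential is a multiple of `D x` form an intermediate field. -/
def diffSpanField (x : F) : IntermediateField K F where
  carrier := {a | KaehlerDifferential.D K F a ∈ Submodule.span F {KaehlerDifferential.D K F x}}
  mul_mem' := by
    intro a b ha hb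
    show KaehlerDifferential.D K F (a * b) ∈ Submodule.span F {KaehlerDifferential.D K F x}
    rw [Derivation.leibniz]
    exact add_mem (Submodule.smul_mem _ _ hb) (Submodule.smul_mem _ _ ha)
  one_mem' := by
    show KaehlerDifferential.D K F 1 ∈ Submodule.span F {KaehlerDifferential.D K F x}
    rw [Derivation.map_one_eq_zero]
    exact zero_mem _
  add_mem' := by
    intro a b ha hb
    show KaehlerDifferential.D K F (a + b) ∈ Submodule.span F {KaehlerDifferential.D K F x}
    rw [map_add]
    exact add_mem ha hb
  zero_mem' := by
    show KaehlerDifferential.D K F 0 ∈ Submodule.span F {KaehlerDifferential.D K F x}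
    rw [map_zero]
    exact zero_mem _
  algebraMap_mem' := by
    intro r
    show KaehlerDifferential.D K F (algebraMap K F r) ∈ Submodule.span F {KaehlerDifferential.D K F x}
    rw [Derivation.map_algebraMap]
    exact zero_mem _
  inv_mem' := by
    intro a ha
    show KaehlerDifferential.D K F a⁻¹ ∈ Submodule.span F {KaehlerDifferential.D K F x}
    rw [Derivation.leibniz_inv]
    exact Submodule.smul_mem _ _ ha

theorem mem_diffSpanField {x a : F} :
    a ∈ diffSpanField (K := K) x ↔
      KaehlerDifferential.D K F a ∈ Submodule.span F {KaehlerDifferential.D K F x} :=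
  Iff.rfl

theorem adjoin_simple_le_diffSpanField (x : F) : K⟮x⟯ ≤ diffSpanField x := by
  rw [IntermediateField.adjoin_simple_le_iff]
  exact Submodule.mem_span_singleton_self _

theorem D_aeval_sub_mem (x y : F) (P : Polynomial K⟮x⟯) :
    KaehlerDifferential.D K F (aeval y P) - aeval y (derivative P) • KaehlerDifferential.D K F y ∈
      Submodule.span F {KaehlerDifferential.D K F x} := by
  induction P using Polynomial.induction_on' with
  | add p q hp hq =>
    have : KaehlerDifferential.D K F (aeval y (p + q)) -
        aeval y (derivative (p + q)) • KaehlerDifferential.D K F y =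
        (KaehlerDifferential.D K F (aeval y p) -
          aeval y (derivative p) • KaehlerDifferential.D K F y) +
        (KaehlerDifferential.D K F (aeval y q) -
          aeval y (derivative q) • KaehlerDifferential.D K F y) := by
      rw [map_add, map_add, derivative_add, map_add, add_smul]
      abel
    rw [this]
    exact add_mem hp hq
  | monomial n a =>
    have ha : KaehlerDifferential.D K F (algebraMap K⟮x⟯ F a) ∈
        Submodule.span F {KaehlerDifferential.D K F x} :=
      adjoin_simple_le_diffSpanField x a.2
    have : KaehlerDifferential.D K F (aeval y (monomial n a)) -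
        aeval y (derivative (monomial n a)) • KaehlerDifferential.D K F y =
        y ^ n • KaehlerDifferential.D K F (algebraMap K⟮x⟯ F a) := by
      rw [aeval_monomial, derivative_monomial, aeval_monomial, Derivation.leibniz,
        Derivation.leibniz_pow, map_mul, map_natCast, ← Nat.cast_smul_eq_nsmul F, smul_smul,
        smul_smul]
      abel
    rw [this]
    exact Submodule.smul_mem _ _ ha

/-- **DIFF (D1).**  If `F` is algebraic over `K(x)` and the characteristic is zero, the module of
Kähler differentials of `F/K` is spanned by `D x`. -/
theorem span_D_eq_top [CharZero K] {x : F} (halg : Algebra.IsAlgebraic K⟮x⟯ F) :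
    Submodule.span F {KaehlerDifferential.D K F x} = ⊤ := by
  rw [eq_top_iff, ← KaehlerDifferential.span_range_derivation K F, Submodule.span_le]
  rintro _ ⟨y, rfl⟩
  have hy : IsIntegral K⟮x⟯ y := (halg.isAlgebraic y).isIntegral
  have hP : aeval y (minpoly K⟮x⟯ y) = 0 := minpoly.aeval _ _
  have hsep : (minpoly K⟮x⟯ y).Separable := (minpoly.irreducible hy).separable
  have hder : aeval y (derivative (minpoly K⟮x⟯ y)) ≠ 0 := hsep.aeval_derivative_ne_zero hP
  have h := D_aeval_sub_mem x y (minpoly K⟮x⟯ y)
  rw [hP, map_zero, zero_sub] at h
  have h2 := Submodule.smul_mem _ (-(aeval y (derivative (minpoly K⟮x⟯ y)))⁻¹) h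
  rw [smul_neg, neg_smul, neg_neg, smul_smul, inv_mul_cancel₀ hder, one_smul] at h2
  exact h2

end Fermat.Agent.S24.H9
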