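import Fermat.Agent.S24.Defs
import Fermat.Agent.S24.H9.Diff
import Fermat.Agent.S24.H9.Kaehler

/-!
# S24, package A8 (Kaehler) on the `LocalData` interface

`Ω[F⁄K] = F · D t`, `D π ≠ 0`, and the order of `g • D π` at a place over the center.  The
algebraicity of `F` over `K(π)` (package A2) enters as the hypothesis `halg`.
-/

set_option autoImplicit false

namespace Fermat.Agent.S24.H9

open AlgebraicCurve KaehlerDifferential Fermat.Agent.S24

variable {K F X : Type*} [Field K] [Field F] [Algebra K F] [Fintype X]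
  {R : Subalgebra K F} {π : F}

theorem exists_smul_D_eq_of_isAlgebraic [CharZero K] (t : F)
    (halg : Algebra.IsAlgebraic (IntermediateField.adjoin K {t}) F) (ω : Ω[F⁄K]) :
    ∃ g : F, ω = g • KaehlerDifferential.D K F t := by
  have hmem : ω ∈ Submodule.span F {KaehlerDifferential.D K F t} := by
    rw [span_D_eq_top halg]
    exact Submodule.mem_top
  obtain ⟨g, hg⟩ := Submodule.mem_span_singleton.mp hmem
  exact ⟨g, hg.symm⟩

theorem localData_deriv_algebraMap (L : LocalData K F X R π) (x : X) (a : K) :
    laurentDeriv ℂ (L.φ x (algebraMap K F a)) = 0 := by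
  rw [L.φ_algebraMap, laurentDeriv_C]

theorem localData_D_ne_zero [Nonempty X] (L : LocalData K F X R π) :
    KaehlerDifferential.D K F π ≠ 0 := by
  obtain ⟨x⟩ := ‹Nonempty X›
  intro h0
  have h1 := laurentDeriv_eq_of_D_eq (L.φ x) (localData_deriv_algebraMap L x)
    (x := π) (y := π) (c := 0) (by rw [h0, zero_smul])
  rw [map_zero, zero_mul] at h1
  have hs : (L.φ x π).order ≠ 0 := by
    rw [L.order_π x]
    exact_mod_cast L.s_pos.ne'
  exact (laurentDeriv_ne_zero_and_order hs).1 h1

/-- A place induced by `φ x` is computed by `φ x` with an integral ramification index. -/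
theorem localData_exists_ramification (L : LocalData K F X R π) (v : Place K F) {x : X}
    (hx : L.Rel v x) :
    ∃ e : ℤ, e ≠ 0 ∧ v.ord π ≠ 0 ∧ ∀ f : F, (L.φ x f).order = e * v.ord f := by
  obtain ⟨t, ht1, -⟩ := exists_uniformizer_dCoord v
  have h1 := hx t
  rw [ht1, mul_one] at h1
  have hs : (L.s : ℤ) ≠ 0 := by exact_mod_cast L.s_pos.ne'
  have hπ : v.ord π ≠ 0 := by
    intro h0
    rw [h0, mul_zero] at h1
    exact hs h1.symm
  have he : (L.φ x t).order ≠ 0 := by
    intro h0
    rw [h0, zero_mul] at h1
    exact hs h1.symm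
  refine ⟨(L.φ x t).order, he, hπ, fun f => ?_⟩
  have h2 := hx f
  rw [← h1] at h2
  have h3 : (L.φ x f).order * v.ord π = ((L.φ x t).order * v.ord f) * v.ord π := by
    rw [h2]; ring
  exact mul_right_cancel₀ hπ h3

theorem localData_ordDifferential_smul_D [CharZero K] (L : LocalData K F X R π)
    (halg : Algebra.IsAlgebraic (IntermediateField.adjoin K {π}) F)
    (v : Place K F) {x : X} (hx : L.Rel v x) {g : F} (hg : g ≠ 0) :
    v.ordDifferential (g • KaehlerDifferential.D K F π) = v.ord g + v.ord π - 1 := by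
  obtain ⟨e, he, hπ, hord⟩ := localData_exists_ramification L v hx
  have h := ordDifferential_eq_of_ord_sub_ne_zero v (L.φ x) (localData_deriv_algebraMap L x) he
    (fun f _ => hord f) (span_D_eq_top halg) hg 0 (by rwa [map_zero, sub_zero])
  rwa [map_zero, sub_zero] at h

end Fermat.Agent.S24.H9
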